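import Fermat.Agent.Cheb.DensityCalc

/-!
# DS7 (irreducibility), abstract density step

`P` an index type with weights `w`, `G` a finite group, `fr : P → G`, `U ⊆ P`.  If for every subgroup
`H` the set `{v ∈ U | fr v ∈ H}` has logarithmic density `1/[G:H]`, then every function `Φ : G → ℝ`
which only depends on the cyclic subgroup generated by its argument satisfies

  `∑_{v ∈ U} Φ (fr v) w_s(v) = mean(Φ) · log (1/(s-1)) + O(1)`.

(Frobenius's density theorem in functional form; strong induction on subgroups, no Möbius function.)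
-/

set_option autoImplicit false
set_option linter.unusedSectionVars false
set_option linter.unusedVariables false

namespace Fermat.Agent.DS.Irred

open Fermat.Agent.Cheb.Dens

variable {P : Type*} {w : ℝ → P → ℝ} {G : Type*} [Group G] [Fintype G]

/-- `f ∘ fr` has logarithmic mean `mean f` over `U`. -/
def LogMean (w : ℝ → P → ℝ) (fr : P → G) (U : Set P) (f : G → ℝ) : Prop :=
  ∃ K : ℝ, ∀ s : ℝ, 1 < s → s ≤ 2 →
    |∑' v, U.indicator (fun v => f (fr v) * w s v) v -
      (∑ g, f g) / (Fintype.card G : ℝ) * Real.log (1 / (s - 1))| ≤ K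

theorem summable_indicator_mul (hw : IsWeight w) (fr : P → G) (U : Set P) (f : G → ℝ) {s : ℝ}
    (h1 : 1 < s) (h2 : s ≤ 2) : Summable (U.indicator (fun v => f (fr v) * w s v)) := by
  refine Summable.indicator ?_ U
  refine Summable.of_norm_bounded (g := fun v => (∑ g, |f g|) * w s v)
    ((hw.summable s h1 h2).mul_left _) fun v => ?_
  rw [Real.norm_eq_abs, abs_mul, abs_of_nonneg (hw.nonneg s h1 h2 v)]
  refine mul_le_mul_of_nonneg_right ?_ (hw.nonneg s h1 h2 v)
  exact Finset.single_le_sum (f := fun g => |f g|) (fun g _ => abs_nonneg _) (Finset.mem_univ _)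

theorem LogMean.add (hw : IsWeight w) {fr : P → G} {U : Set P} {f g : G → ℝ}
    (hf : LogMean w fr U f) (hg : LogMean w fr U g) : LogMean w fr U (fun x => f x + g x) := by
  obtain ⟨K, hK⟩ := hf
  obtain ⟨K', hK'⟩ := hg
  refine ⟨K + K', fun s h1 h2 => ?_⟩
  have e1 : (∑' v, U.indicator (fun v => (f (fr v) + g (fr v)) * w s v) v) =
      (∑' v, U.indicator (fun v => f (fr v) * w s v) v) +
        ∑' v, U.indicator (fun v => g (fr v) * w s v) v := by
    rw [← Summable.tsum_add (summable_indicator_mul hw fr U f h1 h2)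
      (summable_indicator_mul hw fr U g h1 h2)]
    refine tsum_congr fun v => ?_
    by_cases hv : v ∈ U
    · simp only [Set.indicator_of_mem hv]; ring
    · simp only [Set.indicator_of_notMem hv]; ring
  rw [e1, Finset.sum_add_distrib, add_div, add_mul]
  have := hK s h1 h2
  have := hK' s h1 h2
  calc |_| = |((∑' v, U.indicator (fun v => f (fr v) * w s v) v) -
          (∑ x, f x) / (Fintype.card G : ℝ) * Real.log (1 / (s - 1))) +
        ((∑' v, U.indicator (fun v => g (fr v) * w s v) v) -
          (∑ x, g x) / (Fintype.card G : ℝ) * Real.log (1 / (s - 1)))| := by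
        congr 1; ring
    _ ≤ _ := (abs_add_le _ _).trans (add_le_add (hK s h1 h2) (hK' s h1 h2))

theorem LogMean.const_mul (hw : IsWeight w) {fr : P → G} {U : Set P} {f : G → ℝ} (c : ℝ)
    (hf : LogMean w fr U f) : LogMean w fr U (fun x => c * f x) := by
  obtain ⟨K, hK⟩ := hf
  refine ⟨|c| * K, fun s h1 h2 => ?_⟩
  have e1 : (∑' v, U.indicator (fun v => (c * f (fr v)) * w s v) v) =
      c * ∑' v, U.indicator (fun v => f (fr v) * w s v) v := by
    rw [← tsum_mul_left]
    refine tsum_congr fun v => ?_
    by_cases hv : v ∈ U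
    · simp only [Set.indicator_of_mem hv]; ring
    · simp only [Set.indicator_of_notMem hv]; ring
  rw [e1, ← Finset.mul_sum]
  calc |_| = |c * ((∑' v, U.indicator (fun v => f (fr v) * w s v) v) -
          (∑ x, f x) / (Fintype.card G : ℝ) * Real.log (1 / (s - 1)))| := by
        congr 1; ring
    _ = |c| * |_| := abs_mul _ _
    _ ≤ _ := mul_le_mul_of_nonneg_left (hK s h1 h2) (abs_nonneg _)

theorem LogMean.zero (fr : P → G) (U : Set P) : LogMean w fr U (fun _ => 0) := by
  refine ⟨0, fun s _ _ => ?_⟩
  simp

theorem LogMean.sum (hw : IsWeight w) {fr : P → G} {U : Set P} {ι : Type*} (t : Finset ι)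
    (f : ι → G → ℝ) (hf : ∀ i ∈ t, LogMean w fr U (f i)) :
    LogMean w fr U (fun x => ∑ i ∈ t, f i x) := by
  classical
  induction t using Finset.induction_on with
  | empty => simpa using LogMean.zero (w := w) fr U
  | insert i t hi ih =>
    have h1 := hf i (Finset.mem_insert_self i t)
    have h2 := ih fun j hj => hf j (Finset.mem_insert_of_mem hj)
    have := h1.add hw h2
    refine (iff_of_eq ?_).mp this
    congr 1
    funext x
    rw [Finset.sum_insert hi]

theorem LogMean.congr {fr : P → G} {U : Set P} {f g : G → ℝ} (hfg : ∀ x, f x = g x)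
    (hf : LogMean w fr U f) : LogMean w fr U g := by
  have : f = g := funext hfg
  rwa [← this]

/-- the hypothesis: subgroup densities -/
def SubgroupDensities (w : ℝ → P → ℝ) (fr : P → G) (U : Set P) : Prop :=
  ∀ H : Subgroup G, HasLogDensity w {v | v ∈ U ∧ fr v ∈ H} (1 / (H.index : ℝ))

open Classical in
theorem logMean_subgroup {fr : P → G} {U : Set P} (hd : SubgroupDensities w fr U)
    (H : Subgroup G) : LogMean w fr U (fun g => if g ∈ H then 1 else 0) := by
  obtain ⟨K, hK⟩ := hd H
  refine ⟨K, fun s h1 h2 => ?_⟩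
  have e1 : (∑' v, U.indicator (fun v => (if fr v ∈ H then (1 : ℝ) else 0) * w s v) v) =
      setSum w {v | v ∈ U ∧ fr v ∈ H} s := by
    unfold setSum
    refine tsum_congr fun v => ?_
    by_cases hv : v ∈ U
    · by_cases hH : fr v ∈ H
      · rw [Set.indicator_of_mem hv, Set.indicator_of_mem (show v ∈ {v | v ∈ U ∧ fr v ∈ H} from
          ⟨hv, hH⟩), if_pos hH, one_mul]
      · rw [Set.indicator_of_mem hv, Set.indicator_of_notMem (fun h => hH h.2), if_neg hH,
          zero_mul]
    · rw [Set.indicator_of_notMem hv, Set.indicator_of_notMem (fun h => hv h.1)]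
  have e2 : (∑ g : G, (if g ∈ H then (1 : ℝ) else 0)) / (Fintype.card G : ℝ) =
      1 / (H.index : ℝ) := by
    have hcard : (∑ g : G, (if g ∈ H then (1 : ℝ) else 0)) = (Nat.card H : ℝ) := by
      rw [Finset.sum_ite, Finset.sum_const_zero, add_zero, Finset.sum_const, nsmul_eq_mul, mul_one,
        Nat.card_eq_fintype_card, Fintype.card_subtype]
    have hmul := H.card_mul_index
    have hG : (0 : ℝ) < (Fintype.card G : ℝ) := by exact_mod_cast Fintype.card_pos
    have hH0 : (0 : ℝ) < (Nat.card H : ℝ) := by exact_mod_cast Nat.card_pos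
    have hI0 : (H.index : ℝ) ≠ 0 := by
      have := H.index_ne_zero_of_finite
      exact_mod_cast this
    rw [hcard, div_eq_div_iff hG.ne' hI0, one_mul, ← Nat.card_eq_fintype_card, ← hmul]
    push_cast
    ring
  rw [e1, e2]
  exact hK s h1 h2

open Classical in
/-- generator classes -/
theorem logMean_zpowers_eq (hw : IsWeight w) {fr : P → G} {U : Set P}
    (hd : SubgroupDensities w fr U) (C : Subgroup G) :
    LogMean w fr U (fun g => if Subgroup.zpowers g = C then 1 else 0) := by
  induction C using WellFoundedLT.induction with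
  | ind C ih =>
    have key : ∀ g : G, (if Subgroup.zpowers g = C then (1 : ℝ) else 0) =
        (if g ∈ C then (1 : ℝ) else 0) +
          (-1) * ∑ C' ∈ Finset.univ.filter (fun C' : Subgroup G => C' < C),
            (if Subgroup.zpowers g = C' then (1 : ℝ) else 0) := by
      intro g
      by_cases hgC : g ∈ C
      · have hle : Subgroup.zpowers g ≤ C := (Subgroup.zpowers_le).mpr hgC
        rw [if_pos hgC]
        rcases hle.eq_or_lt with heq | hlt
        · rw [if_pos heq]
          have : ∑ C' ∈ Finset.univ.filter (fun C' : Subgroup G => C' < C),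
              (if Subgroup.zpowers g = C' then (1 : ℝ) else 0) = 0 := by
            refine Finset.sum_eq_zero fun C' hC' => ?_
            rw [Finset.mem_filter] at hC'
            rw [if_neg]
            intro h
            have hCC : C' = C := h.symm.trans heq
            exact (lt_irrefl C) (hCC ▸ hC'.2)
          rw [this]; ring
        · rw [if_neg hlt.ne]
          have : ∑ C' ∈ Finset.univ.filter (fun C' : Subgroup G => C' < C),
              (if Subgroup.zpowers g = C' then (1 : ℝ) else 0) = 1 := by
            rw [Finset.sum_ite_eq]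
            rw [if_pos]
            rw [Finset.mem_filter]
            exact ⟨Finset.mem_univ _, hlt⟩
          rw [this]; ring
      · have hne : Subgroup.zpowers g ≠ C := by
          intro h
          apply hgC
          rw [← h]
          exact Subgroup.mem_zpowers g
        rw [if_neg hne, if_neg hgC]
        have : ∑ C' ∈ Finset.univ.filter (fun C' : Subgroup G => C' < C),
            (if Subgroup.zpowers g = C' then (1 : ℝ) else 0) = 0 := by
          refine Finset.sum_eq_zero fun C' hC' => ?_
          rw [Finset.mem_filter] at hC'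
          rw [if_neg]
          intro h
          apply hgC
          have : g ∈ C' := by rw [← h]; exact Subgroup.mem_zpowers g
          exact hC'.2.le this
        rw [this]; ring
    refine LogMean.congr (fun g => (key g).symm) ?_
    refine (logMean_subgroup hd C).add hw (LogMean.const_mul hw (-1) ?_)
    refine LogMean.sum hw _ _ fun C' hC' => ?_
    rw [Finset.mem_filter] at hC'
    exact ih C' hC'.2

open Classical in
/-- **Frobenius's density theorem, functional form.** -/
theorem logMean_of_zpowers_invariant (hw : IsWeight w) {fr : P → G} {U : Set P}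
    (hd : SubgroupDensities w fr U) (Φ : G → ℝ)
    (hΦ : ∀ g h : G, Subgroup.zpowers g = Subgroup.zpowers h → Φ g = Φ h) :
    LogMean w fr U Φ := by
  set Ψ : Subgroup G → ℝ := fun C =>
    if h : ∃ g : G, Subgroup.zpowers g = C then Φ h.choose else 0 with hΨ
  have key : ∀ g : G, (∑ C ∈ (Finset.univ : Finset (Subgroup G)),
      Ψ C * (if Subgroup.zpowers g = C then (1 : ℝ) else 0)) = Φ g := by
    intro g
    simp only [mul_ite, mul_one, mul_zero]
    rw [Finset.sum_ite_eq, if_pos (Finset.mem_univ _)]
    have hex : ∃ g' : G, Subgroup.zpowers g' = Subgroup.zpowers g := ⟨g, rfl⟩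
    simp only [hΨ]
    rw [dif_pos hex]
    exact hΦ _ _ hex.choose_spec
  refine LogMean.congr key ?_
  refine LogMean.sum hw _ _ fun C _ => ?_
  exact LogMean.const_mul hw (Ψ C) (logMean_zpowers_eq hw hd C)

/-- **The abstract contradiction**: an upper bound with a constant smaller than the mean is
impossible. -/
theorem false_of_upper_bound (hw : IsWeight w) {fr : P → G} {U : Set P}
    (hd : SubgroupDensities w fr U) (Φ : G → ℝ)
    (hΦ : ∀ g h : G, Subgroup.zpowers g = Subgroup.zpowers h → Φ g = Φ h) (c : ℝ)
    (hc : c < (∑ g, Φ g) / (Fintype.card G : ℝ))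
    (hub : ∃ K : ℝ, ∀ s : ℝ, 1 < s → s ≤ 2 → ∀ F : Finset P, (∀ v ∈ F, v ∈ U) →
      ∑ v ∈ F, Φ (fr v) * w s v ≤ c * Real.log (1 / (s - 1)) + K) : False := by
  classical
  obtain ⟨K, hK⟩ := hub
  obtain ⟨K', hK'⟩ := logMean_of_zpowers_invariant hw hd Φ hΦ
  set μ := (∑ g, Φ g) / (Fintype.card G : ℝ) with hμ
  obtain ⟨s, h1, h2, hs⟩ := exists_log_gt ((K + K') / (μ - c))
  have hpos : 0 < μ - c := sub_pos.mpr hc
  rw [div_lt_iff₀ hpos] at hs
  have hle : (∑' v, U.indicator (fun v => Φ (fr v) * w s v) v) ≤
      c * Real.log (1 / (s - 1)) + K := by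
    refine (summable_indicator_mul hw fr U Φ h1 h2).tsum_le_of_sum_le fun F => ?_
    have := hK s h1 h2 (F.filter (· ∈ U)) (fun v hv => (Finset.mem_filter.mp hv).2)
    rw [Finset.sum_filter] at this
    refine le_trans (le_of_eq ?_) this
    refine Finset.sum_congr rfl fun v _ => ?_
    by_cases hv : v ∈ U
    · rw [Set.indicator_of_mem hv, if_pos hv]
    · rw [Set.indicator_of_notMem hv, if_neg hv]
  have hge := (abs_le.mp (hK' s h1 h2)).1
  nlinarith

end Fermat.Agent.DS.Irred
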