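import Fermat.Agent.S23.AutC

/-!
# DS7 (irreducibility): automorphisms of `ℂ` acting on roots of unity by `ζ ↦ ζ ^ k`
-/

set_option autoImplicit false

namespace Fermat.Agent.DS.Irred

open MvPolynomial

/-- Every `ℚ`-automorphism of the algebraic closure of `ℚ` in `ℂ` extends to a ring automorphism
of `ℂ`. -/
theorem exists_ringEquiv_extending
    (τ : (algebraicClosure ℚ ℂ) ≃ₐ[ℚ] (algebraicClosure ℚ ℂ)) :
    ∃ σ : ℂ ≃+* ℂ, ∀ z : algebraicClosure ℚ ℂ, σ (z : ℂ) = (τ z : ℂ) := by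
  classical
  obtain ⟨ι, v, hv⟩ := exists_isTranscendenceBasis' (algebraicClosure ℚ ℂ) ℂ
  obtain ⟨σ, hσ⟩ := Fermat.Agent.S23.exists_ringEquiv_of_mvPolynomial_ringEquiv hv
    (MvPolynomial.mapEquiv ι τ.toRingEquiv)
  refine ⟨σ, fun z => ?_⟩
  have h1 := hσ (C z)
  rw [aeval_C] at h1
  have h2 : (MvPolynomial.mapEquiv ι τ.toRingEquiv) (C z) = C (τ z) := by
    simp
  rw [h2, aeval_C] at h1
  exact h1

/-- **Cyclotomic automorphisms of `ℂ`.** For `k` prime to `m ≥ 1` there is a ring automorphism of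
`ℂ` raising every `m`-th root of unity to the `k`-th power. -/
theorem exists_ringEquiv_pow {m : ℕ} (hm : 0 < m) {k : ℕ} (hk : k.Coprime m) :
    ∃ σ : ℂ ≃+* ℂ, ∀ ζ : ℂ, ζ ^ m = 1 → σ ζ = ζ ^ k := by
  classical
  have hm0 : m ≠ 0 := hm.ne'
  have : NeZero m := ⟨hm0⟩
  set ζ₀ : ℂ := Complex.exp (2 * Real.pi * Complex.I / m) with hζ₀
  have hprim : IsPrimitiveRoot ζ₀ m := Complex.isPrimitiveRoot_exp m hm0
  have hprimk : IsPrimitiveRoot (ζ₀ ^ k) m := hprim.pow_of_coprime k hk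
  have hint : IsIntegral ℚ ζ₀ := (hprim.isIntegral hm).tower_top
  have hintk : IsIntegral ℚ (ζ₀ ^ k) := hint.pow k
  have hmemF : ζ₀ ∈ algebraicClosure ℚ ℂ := mem_algebraicClosure_iff.mpr hint.isAlgebraic
  have hmemFk : ζ₀ ^ k ∈ algebraicClosure ℚ ℂ := pow_mem hmemF k
  let z : algebraicClosure ℚ ℂ := ⟨ζ₀, hmemF⟩
  have hNormal : Normal ℚ (algebraicClosure ℚ ℂ) := by
    have key : ∀ a : Algebra ℚ (algebraicClosure ℚ ℂ), a = (algebraicClosure ℚ ℂ).algebra' →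
        @Normal ℚ (algebraicClosure ℚ ℂ) _ _ a := by
      intro a ha
      subst ha
      have : IsAlgClosure ℚ (algebraicClosure ℚ ℂ) := algebraicClosure.isAlgClosure ℚ ℂ
      exact (IsAlgClosure.isGalois ℚ (algebraicClosure ℚ ℂ)).to_normal
    exact key _ (Subsingleton.elim _ _)
  have hminz : minpoly ℚ (z ^ k) = minpoly ℚ z := by
    have e1 : minpoly ℚ z = minpoly ℚ ζ₀ :=
      (minpoly.algebraMap_eq (algebraMap (algebraicClosure ℚ ℂ) ℂ).injective z).symm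
    have e2 : minpoly ℚ (z ^ k) = minpoly ℚ (ζ₀ ^ k) := by
      have := (minpoly.algebraMap_eq (A := ℚ)
        (algebraMap (algebraicClosure ℚ ℂ) ℂ).injective (z ^ k)).symm
      rw [this]
      rfl
    rw [e1, e2, ← Polynomial.cyclotomic_eq_minpoly_rat hprim hm,
      ← Polynomial.cyclotomic_eq_minpoly_rat hprimk hm]
  have hconj : IsConjRoot ℚ (z ^ k) z := hminz
  obtain ⟨τ, hτ⟩ := hconj.exists_algEquiv
  obtain ⟨σ, hσ⟩ := exists_ringEquiv_extending τ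
  refine ⟨σ, fun ζ hζ => ?_⟩
  obtain ⟨i, -, rfl⟩ := hprim.eq_pow_of_pow_eq_one hζ
  have h0 : σ ζ₀ = ζ₀ ^ k := by
    have := hσ z
    rw [hτ] at this
    exact this
  rw [map_pow, h0, ← pow_mul, ← pow_mul, mul_comm]

end Fermat.Agent.DS.Irred
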