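import Mathlib

/-!
# DS7 (irreducibility): the character sums
-/

set_option autoImplicit false
set_option linter.unusedSectionVars false
set_option linter.unusedVariables false
set_option linter.style.haveILetI false

namespace Fermat.Agent.DS.Irred

/-- `‖u + u'‖² = 2 + 2 Re (u / u')` for complex numbers of norm one. -/
theorem norm_add_sq_of_norm_one {u u' : ℂ} (hu : ‖u‖ = 1) (hu' : ‖u'‖ = 1) :
    ‖u + u'‖ ^ 2 = 2 + 2 * (u * u'⁻¹).re := by
  have h1 : Complex.normSq u = 1 := by rw [Complex.normSq_eq_norm_sq, hu]; norm_num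
  have h2 : Complex.normSq u' = 1 := by rw [Complex.normSq_eq_norm_sq, hu']; norm_num
  have hinv : u'⁻¹ = (starRingEnd ℂ) u' := by
    rw [Complex.inv_def, h2]; simp
  rw [← Complex.normSq_eq_norm_sq, Complex.normSq_add, h1, h2, hinv]
  ring

section Mean

variable {G : Type*} [Group G] [Fintype G]

theorem norm_unit_eq_one (α : G →* ℂˣ) (g : G) : ‖(α g : ℂ)‖ = 1 := by
  have h : (α g : ℂ) ^ Fintype.card G = 1 := by
    rw [← Units.val_pow_eq_pow_val, ← map_pow, pow_card_eq_one, map_one, Units.val_one]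
  exact Complex.norm_eq_one_of_pow_eq_one h Fintype.card_ne_zero

open Classical in
/-- The mean square of the sum of two characters is at least `2`. -/
theorem two_mul_card_le_sum_norm_sq (α β : G →* ℂˣ) :
    2 * (Fintype.card G : ℝ) ≤ ∑ g : G, ‖(α g : ℂ) + (β g : ℂ)‖ ^ 2 := by
  have h1 : ∀ g : G, ‖(α g : ℂ) + (β g : ℂ)‖ ^ 2 =
      2 + 2 * ((((Units.coeHom ℂ).comp (α * β⁻¹)) g : ℂ)).re := by
    intro g
    rw [norm_add_sq_of_norm_one (norm_unit_eq_one α g) (norm_unit_eq_one β g)]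
    simp
  rw [Finset.sum_congr rfl fun g _ => h1 g, Finset.sum_add_distrib, Finset.sum_const,
    Finset.card_univ, nsmul_eq_mul, ← Finset.mul_sum, ← Complex.re_sum, sum_hom_units]
  have : 0 ≤ (((if (Units.coeHom ℂ).comp (α * β⁻¹) = 1 then Fintype.card G else 0 : ℕ) : ℂ)).re := by
    rw [Complex.natCast_re]
    exact Nat.cast_nonneg _
  linarith

end Mean

section Twist

variable {m : ℕ} [NeZero m]

theorem pow_val_mul {x : ℂ} (hx : x ^ m = 1) (j k : (ZMod m)ˣ) :
    (x ^ (j : ZMod m).val) ^ (k : ZMod m).val = x ^ ((j * k : (ZMod m)ˣ) : ZMod m).val := by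
  rw [← pow_mul, Units.val_mul, ZMod.val_mul, pow_eq_pow_mod _ hx]

/-- Twisting both roots of unity by a unit `j` permutes the sum over `(ℤ/m)ˣ`. -/
theorem sum_twist {x₁ x₂ : ℂ} (h₁ : x₁ ^ m = 1) (h₂ : x₂ ^ m = 1) (j : (ZMod m)ˣ) :
    ∑ k : (ZMod m)ˣ, ‖(x₁ ^ (j : ZMod m).val) ^ (k : ZMod m).val +
        (x₂ ^ (j : ZMod m).val) ^ (k : ZMod m).val‖ ^ 2 =
      ∑ k : (ZMod m)ˣ, ‖x₁ ^ (k : ZMod m).val + x₂ ^ (k : ZMod m).val‖ ^ 2 := by
  simp only [pow_val_mul h₁, pow_val_mul h₂]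
  exact Fintype.sum_equiv (Equiv.mulLeft j) _ _ fun k => rfl

end Twist

section Gen

variable {G : Type*} [Group G] [Fintype G]

/-- Two generators of the same cyclic subgroup differ by a power prime to the group order. -/
theorem exists_unit_pow_eq {g h : G} (hgh : Subgroup.zpowers g = Subgroup.zpowers h) :
    haveI : NeZero (Fintype.card G) := ⟨Fintype.card_ne_zero⟩
    ∃ j : (ZMod (Fintype.card G))ˣ, h = g ^ (j : ZMod (Fintype.card G)).val := by
  haveI : NeZero (Fintype.card G) := ⟨Fintype.card_ne_zero⟩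
  have hd : orderOf g ∣ Fintype.card G := orderOf_dvd_card
  have hpos : 0 < orderOf g := orderOf_pos g
  have hmem : h ∈ Subgroup.zpowers g := by rw [hgh]; exact Subgroup.mem_zpowers h
  rw [← mem_powers_iff_mem_zpowers, Submonoid.mem_powers_iff] at hmem
  obtain ⟨i, rfl⟩ := hmem
  have hord : orderOf (g ^ i) = orderOf g := by
    rw [← Nat.card_zpowers, ← Nat.card_zpowers g, hgh]
  have hcop : Nat.Coprime i (orderOf g) := by
    rw [orderOf_pow] at hord
    have h1 : (orderOf g).gcd i = 1 := by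
      have h2 := Nat.div_mul_cancel (Nat.gcd_dvd_left (orderOf g) i)
      rw [hord] at h2
      have h3 : orderOf g * (orderOf g).gcd i = orderOf g * 1 := by rw [h2, mul_one]
      exact Nat.eq_of_mul_eq_mul_left hpos h3
    rw [Nat.coprime_comm]
    exact h1
  obtain ⟨j, hj⟩ := ZMod.unitsMap_surjective hd (ZMod.unitOfCoprime i hcop)
  refine ⟨j, ?_⟩
  have h1 := congrArg (fun u : (ZMod (orderOf g))ˣ => (u : ZMod (orderOf g))) hj
  simp only [ZMod.unitsMap_def, Units.coe_map, MonoidHom.coe_coe, ZMod.castHom_apply,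
    ZMod.coe_unitOfCoprime] at h1
  rw [← ZMod.natCast_val, ZMod.natCast_eq_natCast_iff] at h1
  exact (pow_eq_pow_iff_modEq.mpr h1).symm

end Gen

end Fermat.Agent.DS.Irred
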