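import Mathlib
import Fermat.Agent.S54.FrobExists

/-!
# DS7 (irreducibility): the fixed field of the kernel of a character of finite level

For `Ψ : G_ℚ →* A` (`A` a commutative group) trivial on `Gal(ℚ̄/L)`, `L/ℚ` finite, the fixed field
`M` of `ker Ψ` is a finite abelian extension of `ℚ` and `Ψ` factors through `Gal(M/ℚ)`.
-/

set_option autoImplicit false
set_option linter.unusedSectionVars false
set_option linter.style.haveILetI false

namespace Fermat.Agent.DS.Irred

local notation "Qb" => AlgebraicClosure ℚ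
local notation "GQ" => (AlgebraicClosure ℚ ≃ₐ[ℚ] AlgebraicClosure ℚ)

/-- `ℚ̄/ℚ` is Galois (local instance). -/
local instance isGaloisQb : IsGalois ℚ Qb := Fermat.Agent.S54.FrobExists.isGalois_rat_algebraicClosure

variable {A : Type*} [CommGroup A] (Ψ : GQ →* A)

/-- the fixed field of the kernel of `Ψ` -/
noncomputable def kerField : IntermediateField ℚ Qb := IntermediateField.fixedField Ψ.ker

variable {Ψ} {L : IntermediateField ℚ Qb} [FiniteDimensional ℚ L]

theorem fixingSubgroup_kerField (hL : ∀ σ : GQ, (∀ x ∈ L, σ x = x) → Ψ σ = 1) :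
    (kerField Ψ).fixingSubgroup = Ψ.ker := by
  have hle : L.fixingSubgroup ≤ Ψ.ker := by
    intro σ hσ
    rw [MonoidHom.mem_ker]
    apply hL
    intro x hx
    exact (IntermediateField.mem_fixingSubgroup_iff L σ).mp hσ x hx
  have hopen : IsOpen (Ψ.ker : Set GQ) :=
    Subgroup.isOpen_mono hle (IntermediateField.fixingSubgroup_isOpen L)
  have hclosed : IsClosed (Ψ.ker : Set GQ) := Subgroup.isClosed_of_isOpen _ hopen
  exact InfiniteGalois.fixingSubgroup_fixedField ⟨Ψ.ker, hclosed⟩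

theorem finiteDimensional_kerField (hL : ∀ σ : GQ, (∀ x ∈ L, σ x = x) → Ψ σ = 1) :
    FiniteDimensional ℚ (kerField Ψ) := by
  refine (InfiniteGalois.isOpen_iff_finite (kerField Ψ)).mp ?_
  rw [fixingSubgroup_kerField hL]
  have hle : L.fixingSubgroup ≤ Ψ.ker := by
    intro σ hσ
    rw [MonoidHom.mem_ker]
    apply hL
    intro x hx
    exact (IntermediateField.mem_fixingSubgroup_iff L σ).mp hσ x hx
  exact Subgroup.isOpen_mono hle (IntermediateField.fixingSubgroup_isOpen L)

theorem isGalois_kerField (hL : ∀ σ : GQ, (∀ x ∈ L, σ x = x) → Ψ σ = 1) :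
    IsGalois ℚ (kerField Ψ) := by
  have hn : (kerField Ψ).fixingSubgroup.Normal := by
    rw [fixingSubgroup_kerField hL]
    exact MonoidHom.normal_ker Ψ
  have h := (InfiniteGalois.normal_iff_isGalois (kerField Ψ)).mp hn
  exact h


section Factor

variable [hG : IsGalois ℚ (kerField Ψ)]

theorem restrictNormalHom_ker_kerField (hL : ∀ σ : GQ, (∀ x ∈ L, σ x = x) → Ψ σ = 1) :
    (AlgEquiv.restrictNormalHom (kerField Ψ) : GQ →* Gal(kerField Ψ/ℚ)).ker = Ψ.ker := by
  have h : (AlgEquiv.restrictNormalHom (kerField Ψ) : GQ →* Gal(kerField Ψ/ℚ)).ker =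
      (kerField Ψ).fixingSubgroup :=
    @IntermediateField.restrictNormalHom_ker ℚ Qb _ _ _ (kerField Ψ) hG.to_normal
  rw [h, fixingSubgroup_kerField hL]

/-- `Ψ` factors through `Gal(M/ℚ)`. -/
noncomputable def kerFieldHom (hL : ∀ σ : GQ, (∀ x ∈ L, σ x = x) → Ψ σ = 1) :
    Gal(kerField Ψ/ℚ) →* A :=
  (MonoidHom.liftOfSurjective (AlgEquiv.restrictNormalHom (kerField Ψ))
    (AlgEquiv.restrictNormalHom_surjective Qb))
    ⟨Ψ, by rw [restrictNormalHom_ker_kerField hL]⟩

theorem kerFieldHom_restrict (hL : ∀ σ : GQ, (∀ x ∈ L, σ x = x) → Ψ σ = 1) (σ : GQ) :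
    kerFieldHom hL (AlgEquiv.restrictNormalHom (kerField Ψ) σ) = Ψ σ := by
  unfold kerFieldHom
  exact MonoidHom.liftOfRightInverse_comp_apply _ _ _ _ σ

theorem kerFieldHom_injective (hL : ∀ σ : GQ, (∀ x ∈ L, σ x = x) → Ψ σ = 1) :
    Function.Injective (kerFieldHom hL) := by
  rw [injective_iff_map_eq_one]
  intro g hg
  obtain ⟨σ, rfl⟩ := AlgEquiv.restrictNormalHom_surjective Qb g
  rw [kerFieldHom_restrict] at hg
  have : σ ∈ (AlgEquiv.restrictNormalHom (kerField Ψ)).ker := by
    rw [restrictNormalHom_ker_kerField hL]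
    exact hg
  exact this

theorem isMulCommutative_kerField (hL : ∀ σ : GQ, (∀ x ∈ L, σ x = x) → Ψ σ = 1) :
    IsMulCommutative Gal(kerField Ψ/ℚ) :=
  ⟨⟨fun a b => kerFieldHom_injective hL (by rw [map_mul, map_mul, mul_comm])⟩⟩

end Factor

end Fermat.Agent.DS.Irred
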