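import Fermat.Agent.Cheb.ChebGenMain
import Fermat.Agent.Cheb.SplitDensity
import Fermat.Agent.Cheb.SplitFrobNF
import Fermat.Agent.Cheb.Deuring
import Fermat.Agent.DS.Irred.Abstract

set_option autoImplicit false
set_option linter.unusedSectionVars false
set_option linter.style.haveILetI false

open scoped NumberField Pointwise
open IsDedekindDomain

noncomputable section

namespace Fermat.Agent.DS.Irred

open Fermat.Agent.Cheb Fermat.Agent.Cheb.Dens Fermat.Agent.CFT Fermat.Agent.CFT.IdeleDict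

local notation "Qb" => AlgebraicClosure ℚ
local notation "GQ" => (AlgebraicClosure ℚ ≃ₐ[ℚ] AlgebraicClosure ℚ)

/-- every element of `𝓞 ℚ` is an integer -/
theorem exists_intCast_eq (x : 𝓞 ℚ) : ∃ n : ℤ, x = (n : 𝓞 ℚ) := by
  refine ⟨Rat.ringOfIntegersEquiv x, ?_⟩
  have h := Rat.ringOfIntegersEquiv.symm_apply_apply x
  have h2 : Rat.ringOfIntegersEquiv.symm ((Rat.ringOfIntegersEquiv x : ℤ)) =
      ((Rat.ringOfIntegersEquiv x : ℤ) : 𝓞 ℚ) := map_intCast Rat.ringOfIntegersEquiv.symm _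
  rw [← h2, h]

theorem ideal_eq_span_of_natCast_mem {I : Ideal (𝓞 ℚ)} (hI : I ≠ ⊤) {p : ℕ} (hp : p.Prime)
    (hpI : (p : 𝓞 ℚ) ∈ I) : I = Ideal.span {(p : 𝓞 ℚ)} := by
  apply le_antisymm
  · intro x hx
    obtain ⟨n, rfl⟩ := exists_intCast_eq x
    rw [Ideal.mem_span_singleton]
    by_cases hpn : (p : ℤ) ∣ n
    · obtain ⟨m, rfl⟩ := hpn
      exact ⟨(m : 𝓞 ℚ), by push_cast; ring⟩
    · exfalso
      apply hI
      rw [Ideal.eq_top_iff_one]
      have hcop : IsCoprime (p : ℤ) n :=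
        (Nat.prime_iff_prime_int.mp hp).coprime_iff_not_dvd.mpr hpn
      obtain ⟨a, b, hab⟩ := hcop
      have h1 : ((a * p + b * n : ℤ) : 𝓞 ℚ) ∈ I := by
        push_cast
        exact I.add_mem (I.mul_mem_left _ hpI) (I.mul_mem_left _ hx)
      rw [hab] at h1
      simpa using h1
  · rw [Ideal.span_le, Set.singleton_subset_iff]
    exact hpI


/-- A degree-one prime of `𝓞 ℚ` is generated by its norm. -/
theorem asIdeal_eq_span_absNorm (v : HeightOneSpectrum (𝓞 ℚ)) {p : ℕ} (hp : p.Prime)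
    (hv : Ideal.absNorm v.asIdeal = p) : v.asIdeal = Ideal.span {(p : 𝓞 ℚ)} := by
  refine ideal_eq_span_of_natCast_mem v.isPrime.ne_top hp ?_
  rw [← hv]
  exact Ideal.absNorm_mem v.asIdeal

/-- The norm is injective on the degree-one primes of `𝓞 ℚ`. -/
theorem eq_of_absNorm_eq {v v' : HeightOneSpectrum (𝓞 ℚ)} (hv : DegOne.IsDegreeOne ℚ v)
    (h : Ideal.absNorm v.asIdeal = Ideal.absNorm v'.asIdeal) : v = v' := by
  apply HeightOneSpectrum.ext
  rw [asIdeal_eq_span_absNorm v hv rfl, asIdeal_eq_span_absNorm v' hv h.symm]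

section Field

variable (M : IntermediateField ℚ Qb) [FiniteDimensional ℚ M] [NumberField M] [IsGalois ℚ M]
  [IsMulCommutative Gal(M/ℚ)]

/-- the good primes of `ℚ` for `M`, with norm outside `T` -/
def goodRat (T : Finset ℕ) : Set (HeightOneSpectrum (𝓞 ℚ)) :=
  {v | v ∈ goodSet ℚ M ∧ Ideal.absNorm v.asIdeal ∉ T}

/-- the Frobenius map -/
def frobRat (v : HeightOneSpectrum (𝓞 ℚ)) : Gal(M/ℚ) := S14.frob ℚ M v.asIdeal

theorem finite_compl_goodRat (T : Finset ℕ) :
    {v : HeightOneSpectrum (𝓞 ℚ) | DegOne.IsDegreeOne ℚ v ∧ v ∉ goodRat M T}.Finite := by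
  refine ((finite_not_unramIn ℚ M).union (finite_absNorm_mem ℚ T)).subset ?_
  rintro v ⟨hv1, hv2⟩
  by_cases hu : UnramIn ℚ M v
  · right
    by_contra hT
    exact hv2 ⟨⟨hv1, hu⟩, hT⟩
  · left
    exact hu

theorem subgroupDensities_goodRat (T : Finset ℕ) :
    SubgroupDensities (primeTerm ℚ) (frobRat M) (goodRat M T) := by
  intro H
  haveI : IsAbelianGalois ℚ M := { }
  have h := hasLogDensity_splSet_intermediate ℚ M (IntermediateField.fixedField H)
  rw [IntermediateField.finrank_eq_fixingSubgroup_index,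
    IntermediateField.fixingSubgroup_fixedField] at h
  have hfin : (splSet ℚ (IntermediateField.fixedField H) \ goodRat M T).Finite := by
    refine (finite_compl_goodRat M T).subset ?_
    rintro v ⟨hv1, hv2⟩
    exact ⟨hv1.1, hv2⟩
  have h2 := h.inter_of_finite_diff (isWeight_primeTerm ℚ) hfin
  refine (iff_of_eq ?_).mp h2
  congr 1
  ext v
  constructor
  · rintro ⟨hv1, hv2⟩
    exact ⟨hv2, (mem_splSet_fixedField_iff_frob_mem H hv2.1).mp hv1⟩
  · rintro ⟨hv1, hv2⟩
    exact ⟨(mem_splSet_fixedField_iff_frob_mem H hv1.1).mpr hv2, hv1⟩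


/-- **Frobenius dictionary over `ℚ`**: for a good prime `v` of norm `p`, the restriction to `M` of
every Frobenius element at every place of `Qb` over `p` is `frobRat M v`. -/
theorem restrict_eq_frobRat {v : HeightOneSpectrum (𝓞 ℚ)} (hv : v ∈ goodSet ℚ M) {p : ℕ}
    (hp : Ideal.absNorm v.asIdeal = p) {P : ValuationSubring Qb} (hP : P.LiesOverPrime p)
    {φ : GQ} (hφ : P.IsFrobeniusAt φ p) :
    AlgEquiv.restrictNormalHom M φ = frobRat M v := by
  haveI : IsAbelianGalois ℚ M := { }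
  have hpp : p.Prime := hp ▸ hv.1
  haveI := v.isPrime
  have hvspan := asIdeal_eq_span_absNorm v hpp hp
  have hQmem : (p : 𝓞 M) ∈ centerOn M P := natCast_mem_centerOn M hP
  have hunder : (centerOn M P).under (𝓞 ℚ) = Ideal.span {(p : 𝓞 ℚ)} := by
    refine ideal_eq_span_of_natCast_mem ?_ hpp ?_
    · exact (Ideal.IsPrime.under (𝓞 ℚ) (centerOn M P)).ne_top
    · rw [Ideal.under_def, Ideal.mem_comap, map_natCast]
      exact hQmem
  haveI hlies : (centerOn M P).LiesOver v.asIdeal := ⟨by rw [hvspan, hunder]⟩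
  have hunr : Ideal.inertia Gal(M/ℚ) (centerOn M P) = ⊥ := hv.2 (centerOn M P) inferInstance hlies
  have hg : IsArithFrobAt ℤ (frobRat M v) (centerOn M P) := by
    intro x
    rw [card_quotient_under_centerOn M hpp hP]
    have := S14.frob_smul_sub_pow_mem ℚ M v.asIdeal v.ne_bot (centerOn M P) x
    rw [hp] at this
    exact this
  exact restrict_eq_of_isArithFrobAt M hpp hP hφ hg hunr

end Field

end Fermat.Agent.DS.Irred
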