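import Mathlib
import Fermat.Prelude.Def_Deformations_MatrixRepresentation

/-!
# DS7 (irreducibility): a reducible two-dimensional representation has trace `χ₁ + χ₂`
-/

set_option autoImplicit false
set_option linter.unusedSectionVars false
set_option linter.unusedVariables false

namespace Fermat.Agent.DS.Irred

universe u

variable {Γ : Type u} [Group Γ] {k : Type u} [Field k]

/-- an eigenvalue of a `2 × 2` matrix is a root of `X² - tr X + det` -/
theorem eigen_quadratic (A : Matrix (Fin 2) (Fin 2) k) (v : Fin 2 → k) (hv : v ≠ 0) (c : k)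
    (h : A.mulVec v = c • v) : c * c - A.trace * c + A.det = 0 := by
  have h0 : (A - c • (1 : Matrix (Fin 2) (Fin 2) k)).mulVec v = 0 := by
    rw [Matrix.sub_mulVec, h, Matrix.smul_mulVec, Matrix.one_mulVec, sub_self]
  have hdet : (A - c • (1 : Matrix (Fin 2) (Fin 2) k)).det = 0 :=
    Matrix.exists_mulVec_eq_zero_iff.mp ⟨v, hv, h0⟩
  rw [Matrix.det_fin_two] at hdet
  rw [Matrix.det_fin_two, Matrix.trace_fin_two]
  simp only [Matrix.sub_apply, Matrix.smul_apply, Matrix.one_apply_eq, smul_eq_mul, mul_one,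
    Matrix.one_apply_ne (show (0 : Fin 2) ≠ 1 by decide),
    Matrix.one_apply_ne (show (1 : Fin 2) ≠ 0 by decide), mul_zero, sub_zero] at hdet
  linear_combination hdet

/-- If `ρ` has no common eigenvector then it is irreducible. -/
theorem isIrreducible_of_no_eigenvector (ρ : Γ →* GL (Fin 2) k)
    (h : ¬ ∃ v : Fin 2 → k, v ≠ 0 ∧
      ∀ g : Γ, ∃ c : k, ((ρ g : GL (Fin 2) k) : Matrix (Fin 2) (Fin 2) k).mulVec v = c • v) :
    (Deformation.matrixRepresentation ρ).IsIrreducible := by
  have hnt : Nontrivial (Subrepresentation (Deformation.matrixRepresentation ρ)) := by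
    refine ⟨⟨⊥, ⊤, fun hbt => ?_⟩⟩
    have h1 := congrArg Subrepresentation.toSubmodule hbt
    have h2 : (⊥ : Submodule k (Fin 2 → k)) = ⊤ := h1
    exact bot_ne_top h2
  refine { toNontrivial := hnt, eq_bot_or_eq_top := fun W => ?_ }
  by_contra hW
  push Not at hW
  apply h
  have hWb : W.toSubmodule ≠ ⊥ := fun hb => hW.1 (Subrepresentation.toSubmodule_injective hb)
  have hWt : W.toSubmodule ≠ ⊤ := fun ht => hW.2 (Subrepresentation.toSubmodule_injective ht)
  have h1 : 1 ≤ Module.finrank k W.toSubmodule := Submodule.one_le_finrank_iff.mpr hWb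
  have h2 : Module.finrank k W.toSubmodule < 2 := by
    have := Submodule.finrank_lt hWt
    simpa using this
  have h3 : Module.finrank k W.toSubmodule = 1 := by omega
  obtain ⟨⟨v, hvW⟩, hv0, hv⟩ := finrank_eq_one_iff'.mp h3
  refine ⟨v, fun hv' => hv0 (Subtype.ext hv'), fun g => ?_⟩
  have hmem : Deformation.matrixRepresentation ρ g v ∈ W.toSubmodule :=
    W.apply_mem_toSubmodule g hvW
  obtain ⟨c, hc⟩ := hv ⟨_, hmem⟩
  refine ⟨c, ?_⟩
  have := congrArg Subtype.val hc
  simp only [Submodule.coe_smul, Deformation.matrixRepresentation_apply,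
    Matrix.mulVecLin_apply] at this
  exact this.symm

/-- **A reducible representation has trace `χ₁ + χ₂`.** -/
theorem exists_characters_of_not_isIrreducible (ρ : Γ →* GL (Fin 2) k)
    (h : ¬ (Deformation.matrixRepresentation ρ).IsIrreducible) :
    ∃ χ₁ χ₂ : Γ →* kˣ,
      (∀ g : Γ, ((ρ g : GL (Fin 2) k) : Matrix (Fin 2) (Fin 2) k).trace =
        (χ₁ g : k) + (χ₂ g : k)) ∧
      ∀ g : Γ, ρ g = 1 → χ₁ g = 1 ∧ χ₂ g = 1 := by
  by_contra hcon
  apply h
  apply isIrreducible_of_no_eigenvector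
  rintro ⟨v, hv0, hv⟩
  apply hcon
  choose c hc using hv
  have hsmul : ∀ a b : k, a • v = b • v → a = b := by
    intro a b hab
    have : (a - b) • v = 0 := by rw [sub_smul, hab, sub_self]
    rcases smul_eq_zero.mp this with h1 | h1
    · exact sub_eq_zero.mp h1
    · exact absurd h1 hv0
  have hc1 : c 1 = 1 := by
    apply hsmul
    rw [← hc 1, map_one, one_smul]
    simp
  have hcmul : ∀ g g' : Γ, c (g * g') = c g * c g' := by
    intro g g'
    apply hsmul
    rw [← hc (g * g'), map_mul]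
    have : ((ρ g * ρ g' : GL (Fin 2) k) : Matrix (Fin 2) (Fin 2) k) =
        (ρ g : Matrix (Fin 2) (Fin 2) k) * (ρ g' : Matrix (Fin 2) (Fin 2) k) := rfl
    rw [this, ← Matrix.mulVec_mulVec, hc g', Matrix.mulVec_smul, hc g, smul_smul, mul_comm]
  let c' : Γ →* k := { toFun := c, map_one' := hc1, map_mul' := hcmul }
  let χ₁ : Γ →* kˣ := c'.toHomUnits
  let δ : Γ →* kˣ := (Matrix.GeneralLinearGroup.det).comp ρ
  have hχ₁ : ∀ g, (χ₁ g : k) = c g := fun g => rfl
  have hδ : ∀ g, (δ g : k) = ((ρ g : GL (Fin 2) k) : Matrix (Fin 2) (Fin 2) k).det := fun g => rfl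
  refine ⟨χ₁, δ * χ₁⁻¹, fun g => ?_, fun g hg => ?_⟩
  · have hq := eigen_quadratic _ v hv0 (c g) (hc g)
    have hne : (c g : k) ≠ 0 := by rw [← hχ₁]; exact Units.ne_zero _
    have e : ((δ * χ₁⁻¹) g : k) = ((ρ g : GL (Fin 2) k) : Matrix (Fin 2) (Fin 2) k).det / c g := by
      rw [MonoidHom.mul_apply, MonoidHom.inv_apply, Units.val_mul, Units.val_inv_eq_inv_val, hδ,
        hχ₁, div_eq_mul_inv]
    rw [e, hχ₁]
    field_simp
    linear_combination -hq
  · have h1 : c g = 1 := by
      apply hsmul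
      rw [← hc g, hg, one_smul]
      simp
    have h2 : χ₁ g = 1 := Units.ext (by rw [hχ₁, h1]; rfl)
    refine ⟨h2, ?_⟩
    rw [MonoidHom.mul_apply, MonoidHom.inv_apply, h2]
    have : δ g = 1 := by
      show Matrix.GeneralLinearGroup.det (ρ g) = 1
      rw [hg, map_one]
    rw [this]
    simp

end Fermat.Agent.DS.Irred
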