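import Fermat.Prelude.Def_GaloisRep_Residual
import Fermat.Prelude.Def_FLTPrelim_Ramification
import Fermat.Prelude.Def_EllipticCurve_FrobeniusTrace
import Fermat.Prelude.Def_Deformations_MatrixRepresentation
import Fermat.Agent.DS.Irred.Abstract
import Fermat.Agent.DS.Irred.RatDensity
import Fermat.Agent.DS.Irred.Reducible
import Fermat.Agent.DS.Irred.AutCyclo
import Fermat.Agent.DS.Irred.KerField
import Fermat.Agent.DS.Irred.GroupSums

/-!
# DS7: irreducibility of the Deligne–Serre representation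

A two-dimensional complex representation of `G_ℚ` of finite level whose Frobenius traces `a p`
(`p ∤ N`) satisfy, for EVERY ring automorphism `τ` of `ℂ`, the Rankin-type bound

  `∑_{p ∈ F} ‖τ (a p)‖² p^{-s} ≤ log (1/(s-1)) + C_τ`   (`1 < s ≤ 2`, `F` finite set of primes `∤ N`)

is irreducible.  (If it were reducible its trace would be `χ₁ + χ₂`; summing the bounds over the
automorphisms `ζ ↦ ζ^k` of the `m`-th roots of unity and using Frobenius's density theorem — the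
split-prime densities of `Cheb/` — the left-hand side would be `≥ 2φ(m) log (1/(s-1)) - O(1)`.)
No Kronecker–Weber, no `L(1,χ) ≠ 0`.
-/

set_option autoImplicit false
set_option linter.unusedSectionVars false
set_option linter.unusedVariables false
set_option linter.style.haveILetI false

open scoped NumberField
open IsDedekindDomain

namespace Fermat.Agent.DS.Irred

open Fermat.Agent.Cheb Fermat.Agent.Cheb.Dens Fermat.Agent.CFT Fermat.Agent.CFT.IdeleDict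

local notation "Qb" => AlgebraicClosure ℚ
local notation "GQ" => (AlgebraicClosure ℚ ≃ₐ[ℚ] AlgebraicClosure ℚ)

/-- **DS7**, general form: irreducibility from the constant-one prime bound for all
`Aut(ℂ)`-conjugates; the bound for the conjugate by `τ` may hold only outside a level `N' τ`. -/
theorem isIrreducible_of_conj_bounds' (N : ℕ) (hN : N ≠ 0) (a : ℕ → ℂ)
    (ρ : GQ →* GL (Fin 2) ℂ) (hfin : GaloisFactorsThroughFiniteLevel ρ)
    (htr : ∀ p : ℕ, p.Prime → ¬ p ∣ N →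
      ∀ A : ValuationSubring (AlgebraicClosure ℚ), A.LiesOverPrime p →
        ∀ σ : GQ, A.IsFrobeniusAt σ p →
          ((ρ σ : GL (Fin 2) ℂ) : Matrix (Fin 2) (Fin 2) ℂ).trace = a p)
    (hbound : ∀ τ : ℂ ≃+* ℂ, ∃ N' : ℕ, N' ≠ 0 ∧ ∃ C : ℝ, ∀ s : ℝ, 1 < s → s ≤ 2 →
      ∀ F : Finset ℕ, (∀ p ∈ F, p.Prime ∧ ¬ p ∣ N') →
        ∑ p ∈ F, ‖τ (a p)‖ ^ 2 / (p : ℝ) ^ s ≤ Real.log (1 / (s - 1)) + C) :
    (Deformation.matrixRepresentation ρ).IsIrreducible := by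
  classical
  by_contra hirr
  obtain ⟨χ₁, χ₂, htrace, htriv⟩ := exists_characters_of_not_isIrreducible ρ hirr
  obtain ⟨L, hLfd, hL⟩ := hfin
  haveI := hLfd
  -- the pair of characters and its kernel field
  set Ψ : GQ →* ℂˣ × ℂˣ := χ₁.prod χ₂ with hΨ
  have hΨL : ∀ σ : GQ, (∀ x ∈ L, σ x = x) → Ψ σ = 1 := by
    intro σ hσ
    have := htriv σ (hL σ hσ)
    rw [hΨ, MonoidHom.prod_apply, this.1, this.2]
    rfl
  haveI hfd : FiniteDimensional ℚ (kerField Ψ) := finiteDimensional_kerField hΨL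
  haveI hG : IsGalois ℚ (kerField Ψ) := isGalois_kerField hΨL
  haveI hcomm : IsMulCommutative Gal(kerField Ψ/ℚ) := isMulCommutative_kerField hΨL
  haveI hnf : NumberField (kerField Ψ) := numberField_of_finiteDimensional (kerField Ψ)
  set α : Gal(kerField Ψ/ℚ) →* ℂˣ := (MonoidHom.fst ℂˣ ℂˣ).comp (kerFieldHom hΨL) with hαdef
  set β : Gal(kerField Ψ/ℚ) →* ℂˣ := (MonoidHom.snd ℂˣ ℂˣ).comp (kerFieldHom hΨL) with hβdef
  have hα : ∀ σ : GQ, α (AlgEquiv.restrictNormalHom (kerField Ψ) σ) = χ₁ σ := by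
    intro σ
    rw [hαdef, MonoidHom.comp_apply, kerFieldHom_restrict hΨL σ]
    rfl
  have hβ : ∀ σ : GQ, β (AlgEquiv.restrictNormalHom (kerField Ψ) σ) = χ₂ σ := by
    intro σ
    rw [hβdef, MonoidHom.comp_apply, kerFieldHom_restrict hΨL σ]
    rfl
  set m : ℕ := Fintype.card Gal(kerField Ψ/ℚ) with hmdef
  have hm : 0 < m := Fintype.card_pos
  haveI : NeZero m := ⟨hm.ne'⟩
  have hαm : ∀ g, (α g : ℂ) ^ m = 1 := by
    intro g
    rw [← Units.val_pow_eq_pow_val, ← map_pow, hmdef, pow_card_eq_one, map_one, Units.val_one]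
  have hβm : ∀ g, (β g : ℂ) ^ m = 1 := by
    intro g
    rw [← Units.val_pow_eq_pow_val, ← map_pow, hmdef, pow_card_eq_one, map_one, Units.val_one]
  -- the cyclotomic automorphisms and their constants
  choose τ hτ using fun k : (ZMod m)ˣ => exists_ringEquiv_pow hm (ZMod.val_coe_unit_coprime k)
  choose N' hN'0 C hC using fun k : (ZMod m)ˣ => hbound (τ k)
  -- the test function
  set Φ : Gal(kerField Ψ/ℚ) → ℝ := fun g =>
    ∑ k : (ZMod m)ˣ, ‖(α g : ℂ) ^ (k : ZMod m).val + (β g : ℂ) ^ (k : ZMod m).val‖ ^ 2 with hΦ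
  have hΦinv : ∀ g h : Gal(kerField Ψ/ℚ),
      Subgroup.zpowers g = Subgroup.zpowers h → Φ g = Φ h := by
    intro g h hgh
    obtain ⟨j, rfl⟩ := exists_unit_pow_eq hgh
    simp only [hΦ, map_pow, Units.val_pow_eq_pow_val]
    exact (sum_twist (hαm g) (hβm g) j).symm
  have hφpos : (0 : ℝ) < (Fintype.card (ZMod m)ˣ : ℝ) := by exact_mod_cast Fintype.card_pos
  have hmean : (Fintype.card (ZMod m)ˣ : ℝ) <
      (∑ g, Φ g) / (Fintype.card Gal(kerField Ψ/ℚ) : ℝ) := by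
    have hmR : (0 : ℝ) < (m : ℝ) := by exact_mod_cast hm
    have h1 : (∑ g, Φ g) = ∑ k : (ZMod m)ˣ, ∑ g : Gal(kerField Ψ/ℚ),
        ‖(α g : ℂ) ^ (k : ZMod m).val + (β g : ℂ) ^ (k : ZMod m).val‖ ^ 2 := Finset.sum_comm
    have h2 : ∀ k : (ZMod m)ˣ, 2 * (m : ℝ) ≤ ∑ g : Gal(kerField Ψ/ℚ),
        ‖(α g : ℂ) ^ (k : ZMod m).val + (β g : ℂ) ^ (k : ZMod m).val‖ ^ 2 := by
      intro k
      have := two_mul_card_le_sum_norm_sq (α ^ (k : ZMod m).val) (β ^ (k : ZMod m).val)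
      simpa only [MonoidHom.pow_apply, Units.val_pow_eq_pow_val] using this
    have h3 : (Fintype.card (ZMod m)ˣ : ℝ) * (2 * (m : ℝ)) ≤ ∑ g, Φ g := by
      rw [h1]
      calc (Fintype.card (ZMod m)ˣ : ℝ) * (2 * (m : ℝ))
          = ∑ _k : (ZMod m)ˣ, (2 * (m : ℝ)) := by
            rw [Finset.sum_const, Finset.card_univ, nsmul_eq_mul]
        _ ≤ _ := Finset.sum_le_sum fun k _ => h2 k
    rw [lt_div_iff₀ hmR]
    nlinarith
  -- apply the abstract contradiction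
  have hprod0 : N * ∏ k : (ZMod m)ˣ, N' k ≠ 0 :=
    mul_ne_zero hN (Finset.prod_ne_zero_iff.mpr fun k _ => hN'0 k)
  set T : Finset ℕ := (N * ∏ k : (ZMod m)ˣ, N' k).primeFactors with hT
  refine false_of_upper_bound (isWeight_primeTerm ℚ) (subgroupDensities_goodRat (kerField Ψ) T) Φ
    hΦinv (Fintype.card (ZMod m)ˣ : ℝ) hmean ⟨∑ k, C k, ?_⟩
  intro s h1 h2 F hF
  -- facts about the primes in `F`
  have hprime : ∀ v ∈ F, (Ideal.absNorm v.asIdeal).Prime ∧ ¬ Ideal.absNorm v.asIdeal ∣ N := by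
    intro v hv
    have hv' := hF v hv
    refine ⟨hv'.1.1, fun hdvd => hv'.2 ?_⟩
    rw [hT, Nat.mem_primeFactors]
    exact ⟨hv'.1.1, hdvd.mul_right _, hprod0⟩
  have hprime' : ∀ v ∈ F, ∀ k : (ZMod m)ˣ, ¬ Ideal.absNorm v.asIdeal ∣ N' k := by
    intro v hv k hdvd
    have hv' := hF v hv
    apply hv'.2
    rw [hT, Nat.mem_primeFactors]
    exact ⟨hv'.1.1, (hdvd.trans (Finset.dvd_prod_of_mem _ (Finset.mem_univ k))).mul_left _,
      hprod0⟩
  have key : ∀ v ∈ F, ∀ k : (ZMod m)ˣ,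
      ‖(α (frobRat (kerField Ψ) v) : ℂ) ^ (k : ZMod m).val +
        (β (frobRat (kerField Ψ) v) : ℂ) ^ (k : ZMod m).val‖ ^ 2 =
      ‖τ k (a (Ideal.absNorm v.asIdeal))‖ ^ 2 := by
    intro v hv k
    obtain ⟨hp, hpN⟩ := hprime v hv
    obtain ⟨P, hP, φ, hφ⟩ := Fermat.Agent.S54.FrobExists.exists_isFrobeniusAt _ hp
    have hres := restrict_eq_frobRat (kerField Ψ) (hF v hv).1 rfl hP hφ
    have ha : a (Ideal.absNorm v.asIdeal) = (χ₁ φ : ℂ) + (χ₂ φ : ℂ) :=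
      (htr _ hp hpN P hP φ hφ).symm.trans (htrace φ)
    rw [← hres, hα, hβ, ha, map_add]
    have e1 : τ k (χ₁ φ : ℂ) = (χ₁ φ : ℂ) ^ (k : ZMod m).val := by
      apply hτ k
      rw [← hα φ]
      exact hαm _
    have e2 : τ k (χ₂ φ : ℂ) = (χ₂ φ : ℂ) ^ (k : ZMod m).val := by
      apply hτ k
      rw [← hβ φ]
      exact hβm _
    rw [e1, e2]
  have hinj : ∀ v ∈ F, ∀ v' ∈ F,
      Ideal.absNorm v.asIdeal = Ideal.absNorm v'.asIdeal → v = v' := by
    intro v hv v' _ h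
    exact eq_of_absNorm_eq (hF v hv).1.1 h
  have hterm : ∀ v ∈ F, Φ (frobRat (kerField Ψ) v) * primeTerm ℚ s v =
      ∑ k : (ZMod m)ˣ, ‖τ k (a (Ideal.absNorm v.asIdeal))‖ ^ 2 /
        ((Ideal.absNorm v.asIdeal : ℕ) : ℝ) ^ s := by
    intro v hv
    have hpt : primeTerm ℚ s v = (((Ideal.absNorm v.asIdeal : ℕ) : ℝ) ^ s)⁻¹ := by
      show ((Ideal.absNorm v.asIdeal : ℕ) : ℝ) ^ (-s) = _
      rw [Real.rpow_neg (Nat.cast_nonneg _)]
    rw [hΦ, hpt, Finset.sum_mul]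
    refine Finset.sum_congr rfl fun k _ => ?_
    rw [key v hv k, div_eq_mul_inv]
  calc ∑ v ∈ F, Φ (frobRat (kerField Ψ) v) * primeTerm ℚ s v
      = ∑ v ∈ F, ∑ k : (ZMod m)ˣ, ‖τ k (a (Ideal.absNorm v.asIdeal))‖ ^ 2 /
          ((Ideal.absNorm v.asIdeal : ℕ) : ℝ) ^ s := Finset.sum_congr rfl hterm
    _ = ∑ k : (ZMod m)ˣ, ∑ v ∈ F, ‖τ k (a (Ideal.absNorm v.asIdeal))‖ ^ 2 /
          ((Ideal.absNorm v.asIdeal : ℕ) : ℝ) ^ s := Finset.sum_comm
    _ = ∑ k : (ZMod m)ˣ, ∑ p ∈ F.image (fun v => Ideal.absNorm v.asIdeal),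
          ‖τ k (a p)‖ ^ 2 / (p : ℝ) ^ s := by
        refine Finset.sum_congr rfl fun k _ => ?_
        rw [Finset.sum_image hinj]
    _ ≤ ∑ k : (ZMod m)ˣ, (Real.log (1 / (s - 1)) + C k) := by
        refine Finset.sum_le_sum fun k _ => hC k s h1 h2 _ ?_
        intro p hp
        obtain ⟨v, hv, rfl⟩ := Finset.mem_image.mp hp
        exact ⟨(hprime v hv).1, hprime' v hv k⟩
    _ = (Fintype.card (ZMod m)ˣ : ℝ) * Real.log (1 / (s - 1)) + ∑ k, C k := by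
        rw [Finset.sum_add_distrib, Finset.sum_const, Finset.card_univ, nsmul_eq_mul]

/-- **DS7**: irreducibility from the constant-one prime bound for all `Aut(ℂ)`-conjugates. -/
theorem isIrreducible_of_conj_bounds (N : ℕ) (hN : N ≠ 0) (a : ℕ → ℂ)
    (ρ : GQ →* GL (Fin 2) ℂ) (hfin : GaloisFactorsThroughFiniteLevel ρ)
    (htr : ∀ p : ℕ, p.Prime → ¬ p ∣ N →
      ∀ A : ValuationSubring (AlgebraicClosure ℚ), A.LiesOverPrime p →
        ∀ σ : GQ, A.IsFrobeniusAt σ p →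
          ((ρ σ : GL (Fin 2) ℂ) : Matrix (Fin 2) (Fin 2) ℂ).trace = a p)
    (hbound : ∀ τ : ℂ ≃+* ℂ, ∃ C : ℝ, ∀ s : ℝ, 1 < s → s ≤ 2 → ∀ F : Finset ℕ,
      (∀ p ∈ F, p.Prime ∧ ¬ p ∣ N) →
        ∑ p ∈ F, ‖τ (a p)‖ ^ 2 / (p : ℝ) ^ s ≤ Real.log (1 / (s - 1)) + C) :
    (Deformation.matrixRepresentation ρ).IsIrreducible :=
  isIrreducible_of_conj_bounds' N hN a ρ hfin htr fun τ =>
    ⟨N, hN, hbound τ⟩

end Fermat.Agent.DS.Irred
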