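import Fermat.Agent.DS.S48Skeleton
import Fermat.Agent.DS.Irred.Main

/-!
# DS7 in the shape of the S48 skeleton (v4)

`DS7` of `DS/S48Skeleton.lean` (helper4, v4 @7a3cf7f3) is the literal of
`isIrreducible_of_conj_bounds`: `ds7 : S48Skeleton.DS7`.
-/

set_option autoImplicit false

namespace Fermat.Agent.DS.Irred

open Fermat.Agent.DS.S48Skeleton

/-- **DS7 of the skeleton** (unconditional). -/
theorem ds7 : DS7 :=
  fun N hN a ρ hfin htr hbound => isIrreducible_of_conj_bounds N hN a ρ hfin htr hbound

end Fermat.Agent.DS.Irred
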